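import Fermat.Agent.S31.Core

set_option autoImplicit false

/-!
# S32 / KILL / K1 + K2 : the adjoint for the Weil pairing; Artin-Rees for Hecke polynomials

K1 SKETCH.  Fix `w`, by `hnd` it is enough that `e (∑ i, (a i * c i) • act (g i)⁻¹ w) y = 1` for all `y`.
`e` is bimultiplicative with non zero values, so `e (∑ n_i • x_i) y = ∏ e x_i y ^ n_i` (zpow), `e x 0 = 1`, `e x y ^ m = 1` (from `tors`).
Put `ζ i := e (act (g i)⁻¹ w) y`, an `m`-th root of unity.  `heq (g i)` : `e w (act (g i) y) = g i (ζ i) = ζ i ^ c i`.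
So `∏ ζ i ^ (a i * c i) = ∏ e w (act (g i) y) ^ a i = e w (∑ a i • act (g i) y) = e w 0 = 1`.

K2 SKETCH: copy of `S31.hecke_congr` with a general `P` (delete `lift_dseq_sub`).
-/

namespace Fermat.Agent.S32

open Fermat.Agent.S31

/-- (K1) -/
theorem adjoint_kill {W : Type} [AddCommGroup W] (m : ℕ) (act : GQ →* AddMonoid.End W)
    (tors : ∀ w : W, m • w = 0) (e : W → W → Qb)
    (hl : ∀ x x' y, e (x + x') y = e x y * e x' y) (hr : ∀ x y y', e x (y + y') = e x y * e x y')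
    (h0 : ∀ x y, e x y ≠ 0) (heq : ∀ (σ : GQ) x y, e (act σ x) (act σ y) = σ (e x y))
    (hnd : ∀ x, (∀ y, e x y = 1) → x = 0)
    {r : ℕ} (a : Fin r → ℤ) (g : Fin r → GQ) (c : Fin r → ℕ)
    (hc : ∀ i, ∀ ζ : Qb, ζ ^ m = 1 → g i ζ = ζ ^ c i)
    (hkill : ∀ w : W, ∑ i, a i • act (g i) w = 0) (w : W) :
    ∑ i, (a i * (c i : ℤ)) • act (g i)⁻¹ w = 0 := by
  sorry

/-- (K2) -/
theorem hecke_congr' {H : Type*} [AddCommGroup H] [Module.Free ℤ H] [Module.Finite ℤ H] (p : ℕ)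
    (TH : ℕ → Module.End ℤ H) {𝕋 : Type*} [CommRing 𝕋] (t : ℕ → 𝕋)
    (faithful : ∀ P : FreeAlgebra ℤ ℕ, FreeAlgebra.lift ℤ TH P = 0 → FreeAlgebra.lift ℤ t P = 0) :
    ∃ k : ℕ, ∀ n ≥ k, ∀ P : FreeAlgebra ℤ ℕ,
      (∀ h : H, ∃ h' : H, FreeAlgebra.lift ℤ TH P h = (p ^ n) • h') →
      ∃ w : 𝕋, FreeAlgebra.lift ℤ t P = (p : 𝕋) ^ (n - k) * w := by
  sorry

end Fermat.Agent.S32
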