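import Fermat.Agent.S32.Kill.Adj

set_option autoImplicit false

/-!
# S32 / KILL / K3 + K4 : an element of `ℤ[G_ℚ]` which kills `W n` kills `M` modulo `𝔪 ^ m`

The variable block is the one of `S31/Core.lean` plus the Weil pairing `e n` on `W n`.

K3 SKETCH (= `S31.trace_inertia_congr` for a family).  `k` from `hecke_congr'`, `n := m + k`.  Given `a g` with `hkill`:
`e₀` a basis of `H`; `L` := sup of the fields of definition (`smooth`) of `κ n (e₀ j)` and of `act n (g i)⁻¹ (κ n (e₀ j))` (all `i j`), of `ℚ(ζ_{p^n})` and of `L3` (`hcont m`).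
For every `i`: `S29.frobenius_density_lite L S (g i)` gives `ℓ i, σ i, b i`.  `S31.quad_relation` at `w := act n (g i)⁻¹ v`, `v := κ n (e₀ j)`:
`act n (g i) v - dseq (TW n (ℓ i)) (ℓ i) (b i) v + (ℓ i ^ b i) • act n (g i)⁻¹ v = 0`.
Multiply by `a i` and sum: the first sum is `0` by `hkill`, the third is `0` by `adjoint_kill` with `c i := ℓ i ^ b i` (`hc` : `S31.frob_pow_apply_root` + `g i = σ i ^ b i` on `ζ`; every `p^n`-th root of unity is a power of `ζ ∈ L`).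
So `P := ∑ i, a i • dseq (FreeAlgebra.ι ℤ (ℓ i)) (ℓ i) (b i)` satisfies `κ n (lift TH P h) = 0` on the basis (`S31.kappa_dseq`), `κ_ker`, `hecke_congr'`, `π`, and `S31.trace_congr` for every `i`.

K4 SKETCH.  `m = 0` trivial.  For `m ≥ 1`: `T' := T ⧸ 𝔪 ^ m` is local, `φ` factors through it (`φ (𝔪 ^ m) = 0` because `φ` is a local hom to a field: `φ x` is a non unit, so `0`),
`M' := M` mod `𝔪 ^ m`, `X := ∑ k, a k • M' (g k)`; `(X * M' h).trace` = image of `∑ a k • (M (g k * h)).trace`, which is `0` by K3 for the family `g k * h` (it kills `W n` too).  `S31.trace_determines`.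
-/

namespace Fermat.Agent.S32

open Fermat.Agent.S31 IsLocalRing

section

variable {T : Type} [CommRing T] [IsLocalRing T]
  (p : ℕ) (hp : p.Prime) (hpT : (p : T) ∈ maximalIdeal T) (S : Finset ℕ) (hpS : p ∈ S)
  (M : GQ →* Matrix (Fin 2) (Fin 2) T)
  (hcont : ∀ n : ℕ, ∃ L : IntermediateField ℚ Qb, FiniteDimensional ℚ L ∧
    ∀ σ : GQ, (∀ x ∈ L, σ x = x) → ∀ i j, (M σ - 1) i j ∈ maximalIdeal T ^ n)
  {𝕋 : Type} [CommRing 𝕋] (π : 𝕋 →+* T) (t : ℕ → 𝕋)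
  (hfrob : ∀ ℓ : ℕ, ℓ.Prime → ℓ ∉ S → ∀ A : ValuationSubring Qb, A.LiesOverPrime ℓ →
    ∀ σ : GQ, A.IsFrobeniusAt σ ℓ → (M σ).trace = π (t ℓ) ∧ (M σ).det = (ℓ : T))
  {H : Type} [AddCommGroup H] [Module.Free ℤ H] [Module.Finite ℤ H] (TH : ℕ → Module.End ℤ H)
  (faithful : ∀ P : FreeAlgebra ℤ ℕ, FreeAlgebra.lift ℤ TH P = 0 → FreeAlgebra.lift ℤ t P = 0)
  {W : ℕ → Type} [∀ n, AddCommGroup (W n)]
  (tors : ∀ (n : ℕ) (w : W n), (p ^ n) • w = 0)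
  (act : ∀ n, GQ →* AddMonoid.End (W n))
  (smooth : ∀ (n : ℕ) (w : W n), ∃ L : IntermediateField ℚ Qb, FiniteDimensional ℚ L ∧
    ∀ σ : GQ, (∀ x ∈ L, σ x = x) → act n σ w = w)
  (TW : ∀ n, ℕ → AddMonoid.End (W n))
  (comm : ∀ (n ℓ : ℕ), ℓ.Prime → ℓ ∉ S → ∀ (σ : GQ) (w : W n),
    TW n ℓ (act n σ w) = act n σ (TW n ℓ w))
  (es : ∀ (n ℓ : ℕ), ℓ.Prime → ℓ ∉ S →
    ∀ A : ValuationSubring Qb, A.LiesOverPrime ℓ → ∀ σ : GQ, A.IsFrobeniusAt σ ℓ →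
      ∀ w : W n, act n σ (act n σ w) + ℓ • w = TW n ℓ (act n σ w))
  (κ : ∀ n, H →+ W n)
  (κ_ker : ∀ (n : ℕ) (h : H), κ n h = 0 → ∃ h' : H, h = (p ^ n) • h')
  (κ_T : ∀ (n ℓ : ℕ), ℓ.Prime → ℓ ∉ S → ∀ h : H, κ n (TH ℓ h) = TW n ℓ (κ n h))
  (e : ∀ n, W n → W n → Qb)
  (hl : ∀ n x x' y, e n (x + x') y = e n x y * e n x' y)
  (hr : ∀ n x y y', e n x (y + y') = e n x y * e n x y')
  (h0 : ∀ n x y, e n x y ≠ 0)
  (heq : ∀ n (σ : GQ) x y, e n (act n σ x) (act n σ y) = σ (e n x y))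
  (hnd : ∀ n x, (∀ y, e n x y = 1) → x = 0)

include hp hpT hpS hcont hfrob faithful tors smooth comm es κ_ker κ_T hl hr h0 heq hnd in
/-- (K3) -/
theorem trace_kill (m : ℕ) : ∃ n : ℕ, ∀ (r : ℕ) (a : Fin r → ℤ) (g : Fin r → GQ),
    (∀ w : W n, ∑ i, a i • act n (g i) w = 0) →
    ∑ i, a i • (M (g i)).trace ∈ maximalIdeal T ^ m := by
  sorry

include hp hpT hpS hcont hfrob faithful tors smooth comm es κ_ker κ_T hl hr h0 heq hnd in
/-- (K4) -/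
theorem kill {K : Type} [Field K] [IsAlgClosed K] (φ : T →+* K) [IsLocalHom φ]
    (hirr : ∀ W : Submodule K (Fin 2 → K),
      (∀ g, ∀ v ∈ W, ((M g).map φ).mulVec v ∈ W) → W = ⊥ ∨ W = ⊤) (m : ℕ) :
    ∃ n : ℕ, ∀ (r : ℕ) (a : Fin r → ℤ) (g : Fin r → GQ),
      (∀ w : W n, ∑ i, a i • act n (g i) w = 0) →
      ∀ i j, (∑ k, a k • M (g k)) i j ∈ maximalIdeal T ^ m := by
  sorry

include hp hpT hpS hcont hfrob faithful tors smooth comm es κ_ker κ_T hl hr h0 heq hnd in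
/-- (K4'), the same with finitely supported functions. -/
theorem kill_finsupp {K : Type} [Field K] [IsAlgClosed K] (φ : T →+* K) [IsLocalHom φ]
    (hirr : ∀ W : Submodule K (Fin 2 → K),
      (∀ g, ∀ v ∈ W, ((M g).map φ).mulVec v ∈ W) → W = ⊥ ∨ W = ⊤) (m : ℕ) :
    ∃ n : ℕ, ∀ x : GQ →₀ ℤ,
      (∀ w : W n, (x.sum fun g a => a • act n g w) = 0) →
      ∀ i j, (x.sum fun g a => a • M g) i j ∈ maximalIdeal T ^ m := by
  sorry

end

end Fermat.Agent.S32
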